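import Mathlib
import Fermat.Agent.X0.Alg.DegCore
import Fermat.Agent.X0.RR.DeltaCount
import Fermat.Agent.FF.DiffExp

/-!
# FF2 / Branch (F9 (U-gen)): finiteness of the branch locus, coordinate context

Coordinate context of `X0/Alg/DegCore.lean`: `F` a finite separable extension of `RatFunc K`,
`x = coordX K F`, `𝒪 = ringOfIntegers K F`.

* `ramified_dvd_differentIdeal` : a prime `w` of `𝒪` over `(X - a)` with `2 ≤ ord_w (x - a)`
  divides the different of `𝒪 / K[X]`;
* `finite_ramified_core` : the set of places `v` with `x ∈ O_v` and `2 ≤ ord_v (x - a)` for some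
  `a : K` is finite.
-/

set_option autoImplicit false

open AlgebraicCurve IsDedekindDomain Polynomial FunctionField UniqueFactorizationMonoid

namespace Fermat.Agent.FF2.Branch

open Fermat.Agent.X0 Fermat.Agent.X0.RR Fermat.Agent.FF

attribute [local instance] FractionRing.liftAlgebra FractionRing.isScalarTower_liftAlgebra

variable {K F : Type*} [Field K] [Field F] [Algebra K F]
  [Algebra K[X] F] [Algebra (RatFunc K) F] [IsScalarTower K[X] (RatFunc K) F]
  [IsScalarTower K K[X] F] [FunctionField K F] [Algebra.IsSeparable (RatFunc K) F]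

/-- A prime of `𝒪` at which `x - a` vanishes to order `≥ 2` divides the different. -/
theorem ramified_dvd_differentIdeal (w : HeightOneSpectrum (ringOfIntegers K F)) (a : K)
    (h2 : 2 ≤ (Place.ofHeightOneSpectrum (K := K) (F := F) w).ord
      (coordX K F - algebraMap K F a)) :
    w.asIdeal ∣ differentIdeal K[X] (ringOfIntegers K F) := by
  classical
  have h1 : Module.Finite K[X] (ringOfIntegers K F) :=
    module_finite_of_isIntegralClosure K[X] (RatFunc K) (L := F) (B := ringOfIntegers K F)
  have hsep : Algebra.IsSeparable (FractionRing K[X]) (FractionRing (ringOfIntegers K F)) :=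
    isSeparable_fractionRing_of_isFractionRing K[X] (RatFunc K) (L := F)
      (B := ringOfIntegers K F)
  have hlo : w.asIdeal.LiesOver (primeAt a).asIdeal :=
    (Place.ord_pos_iff_liesOver w a).mp (by omega)
  have hord := Place.ord_eq_ramificationIdx (K := K) (F := F) w a
  have hunder : w.asIdeal.under K[X] = (primeAt a).asIdeal := hlo.over.symm
  have hinj : Function.Injective (algebraMap K[X] (ringOfIntegers K F)) :=
    ringOfIntegers.algebraMap_injective K F
  have hmap : Ideal.map (algebraMap K[X] (ringOfIntegers K F)) (primeAt a).asIdeal ≠ ⊥ :=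
    (Ideal.map_eq_bot_iff_of_injective hinj).not.mpr (primeAt a).ne_bot
  have he : (primeAt a).asIdeal.ramificationIdx' w.asIdeal = eOver K[X] w := by
    rw [Ideal.IsDedekindDomain.ramificationIdx'_eq_normalizedFactors_count hmap w.isPrime
      w.ne_bot, eOver, hunder]
  have h3 : 2 ≤ eOver K[X] w := by
    rw [hord, he] at h2
    exact_mod_cast h2
  have h4 : 1 ≤ diffExp K[X] w := by
    have := eOver_sub_one_le_diffExp K[X] w
    omega
  have h5 := (pow_dvd_differentIdeal_iff K[X] w 1).mpr h4
  rwa [pow_one] at h5

/-- **Finiteness of the branch locus, coordinate context.** -/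
theorem finite_ramified_core :
    {v : Place K F | coordX K F ∈ v.toValuationSubring ∧
      ∃ a : K, 2 ≤ v.ord (coordX K F - algebraMap K F a)}.Finite := by
  classical
  have h1 : Module.Finite K[X] (ringOfIntegers K F) :=
    module_finite_of_isIntegralClosure K[X] (RatFunc K) (L := F) (B := ringOfIntegers K F)
  have hsep : Algebra.IsSeparable (FractionRing K[X]) (FractionRing (ringOfIntegers K F)) :=
    isSeparable_fractionRing_of_isFractionRing K[X] (RatFunc K) (L := F)
      (B := ringOfIntegers K F)
  have hD : differentIdeal K[X] (ringOfIntegers K F) ≠ 0 := differentIdeal_ne_bot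
  have hfin := Ideal.finite_factors hD
  refine (hfin.image (fun w => Place.ofHeightOneSpectrum (K := K) (F := F) w)).subset ?_
  rintro v ⟨hx, a, ha⟩
  obtain ⟨w, rfl⟩ := Place.exists_prime_of_coordX_mem v hx
  exact ⟨w, ramified_dvd_differentIdeal w a ha, rfl⟩

end Fermat.Agent.FF2.Branch
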