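import Mathlib
import Fermat.Agent.FF.PlacesCoord
import Fermat.Agent.FF2.Branch.Core

/-!
# FF2 / Branch (F9 (U-gen)): finiteness of the branch locus of a separating variable

`F / K` a function field, `x` a separating variable (`FF.IsSepVarS K x n`: transcendental,
`[F : K(x)] = n`, `F / K(x)` separable).

* `finite_ramified_S` : finitely many places `v` with `x ∈ O_v` and `2 ≤ ord_v (x - a)` for some
  `a : K`;
* `finite_forall_ord_ne_one_S` (`K` algebraically closed) : finitely many places `v` such that
  `ord_v (x - a) ≠ 1` for all `a : K` (the poles of `x` and the ramified places);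
* `exists_finset_forall_ord_eq_one` : **(U-gen)** there is a finite set `Z` of places such that at
  every place `Q ∉ Z` the function `x` is regular and `x - x(Q)` is a local parameter:
  `∃ a, Q.ord (x - a) = 1`.
-/

set_option autoImplicit false

open AlgebraicCurve Fermat.Agent.X0 IsDedekindDomain IntermediateField Polynomial FunctionField

namespace Fermat.Agent.FF2.Branch

open Fermat.Agent.FF

variable {K F : Type*} [Field K] [Field F] [Algebra K F] {x : F} {n : ℕ}

/-- Finitely many ramified places over the finite values of `x`. -/
theorem finite_ramified_S (hx : IsSepVarS K x n) :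
    {v : Place K F | x ∈ v.toValuationSubring ∧
      ∃ a : K, 2 ≤ v.ord (x - algebraMap K F a)}.Finite := by
  let _ := algPoly K x
  let _ := algRat hx.transcendental
  have := isScalarTower_poly_rat hx.transcendental
  have := isScalarTower_base_poly (K := K) x
  have := hx.finite
  have := hx.separable
  have := functionField_of_finite hx.transcendental
  have := isSeparable_ratFunc_of hx.transcendental
  have h := finite_ramified_core (K := K) (F := F)
  rwa [coordX_eq] at h

variable [IsAlgClosed K]

/-- At a place where `x` is regular, `x - a` vanishes for some `a : K`. -/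
theorem exists_ord_pos_of_mem (hx : IsSepVarS K x n) (v : Place K F)
    (hv : x ∈ v.toValuationSubring) : ∃ a : K, 0 < v.ord (x - algebraMap K F a) := by
  obtain ⟨c, hc⟩ := Place.exists_adicValuation_sub_lt_one_S hx v hv
  refine ⟨c, ?_⟩
  by_cases h0 : x - algebraMap K F c = 0
  · exfalso
    have htr := hx.transcendental
    apply htr
    rw [sub_eq_zero] at h0
    rw [h0]
    exact isAlgebraic_algebraMap c
  · have hne : v.adicValuation (x - algebraMap K F c) ≠ 0 := v.adicValuation_ne_zero h0
    unfold Place.ord
    rw [neg_pos]
    have := (WithZero.log_lt_log hne one_ne_zero).mpr hc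
    simpa using this

/-- Finitely many places at which no `x - a` is a local parameter. -/
theorem finite_forall_ord_ne_one_S (hx : IsSepVarS K x n) :
    {v : Place K F | ∀ a : K, v.ord (x - algebraMap K F a) ≠ 1}.Finite := by
  refine ((finite_ramified_S hx).union (finite_placesOverInfty_S hx)).subset ?_
  intro v hv
  by_cases hmem : x ∈ v.toValuationSubring
  · left
    obtain ⟨a, ha⟩ := exists_ord_pos_of_mem hx v hmem
    refine ⟨hmem, a, ?_⟩
    have := hv a
    omega
  · right
    show v.ord x < 0
    by_contra hnn
    exact hmem (Place.mem_of_ord_nonneg v (not_lt.mp hnn))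

/-- **(U-gen).** Outside a finite set of places, `x` is regular and `x - x(Q)` is a local
parameter. -/
theorem exists_finset_forall_ord_eq_one (hx : IsSepVarS K x n) :
    ∃ Z : Finset (Place K F), ∀ Q : Place K F, Q ∉ Z →
      ∃ a : K, Q.ord (x - algebraMap K F a) = 1 := by
  refine ⟨(finite_forall_ord_ne_one_S hx).toFinset, fun Q hQ => ?_⟩
  rw [Set.Finite.mem_toFinset] at hQ
  by_contra hcon
  push Not at hcon
  exact hQ hcon

end Fermat.Agent.FF2.Branch
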