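import Mathlib
import Fermat.Agent.Val.FinrankModL
import Fermat.Agent.Good.CuspBound
import Fermat.Agent.FF2.Branch.SepVar

/-!
# FF2 / Branch (F9 (U-gen)): the branch locus of `j̃` on the special fibre of `X₀(N)` is finite

`A ⊆ ℚ̄` a valuation subring over `ℓ ∤ N`, `k = ResidueField A`, `F̃ = modularFunctionFieldFullC k N`,
`j̃ = jC N A = jFullC k N`.

* `exists_finset_forall_ord_jC_eq_one` : there is a finite set `Z` of places of `F̃ / k` such that
  at every `Q ∉ Z` one has `Q.ord (j̃ - a) = 1` for some `a : k` (the hypothesis `ha` of helper21's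
  `Rat.exists_rational_lift`, and the 'branch locus' to be avoided by the chord centres);
* `finite_branch_jC` : the set of places at which no `j̃ - a` is a local parameter is finite.
-/

set_option autoImplicit false

open AlgebraicCurve ModularCurve IsLocalRing

namespace Fermat.Agent.FF2.Branch

open Fermat.Agent.FF Fermat.Agent.Val Fermat.Agent.Good.CuspBound Fermat.Agent.X0

set_option synthInstance.maxHeartbeats 400000

variable (N : ℕ) [NeZero N] {ℓ : ℕ} [hℓ : Fact ℓ.Prime] (hℓN : ¬ ℓ ∣ N)
  (A : ValuationSubring (AlgebraicClosure ℚ)) (hA : A.LiesOverPrime ℓ)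

omit [NeZero N] in
theorem jC_eq_jFullC : jC N A = jFullC (ResidueField A) N := rfl

include hℓN hA in
/-- The set of places of `F̃_N` at which no `j̃ - a` is a local parameter is finite. -/
theorem finite_branch_jC :
    {Q : Place (ResidueField A) (modularFunctionFieldFullC (ResidueField A) N) |
      ∀ a : ResidueField A, Q.ord (jC N A - algebraMap (ResidueField A) _ a) ≠ 1}.Finite := by
  have : IsAlgClosed (ResidueField A) := residueField_isAlgClosed A
  exact finite_forall_ord_ne_one_S (isSepVarS_jFullC_residueField N hℓN A hA)

include hℓN hA in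
/-- **(U-gen) for `j̃`.** Outside a finite set of places of `F̃_N`, `j̃ - j̃(Q)` is a local
parameter at `Q`. -/
theorem exists_finset_forall_ord_jC_eq_one :
    ∃ Z : Finset (Place (ResidueField A) (modularFunctionFieldFullC (ResidueField A) N)),
      ∀ Q, Q ∉ Z → ∃ a : ResidueField A,
        Q.ord (jC N A - algebraMap (ResidueField A) _ a) = 1 := by
  have : IsAlgClosed (ResidueField A) := residueField_isAlgClosed A
  exact exists_finset_forall_ord_eq_one (isSepVarS_jFullC_residueField N hℓN A hA)

include hℓN hA in
/-- **Combined form for the consumers** (`Rat.exists_rational_lift`, chord centres): outside a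
finite set `Z` of places of `F̃_N`, a place `Q` is not the reduction of a pole of `j` and
`j̃ - j̃(Q)` is a local parameter at `Q`. -/
theorem exists_finset_good (h : ReductionInputsModL A N) :
    ∃ Z : Finset (Place (ResidueField A) (modularFunctionFieldFullC (ResidueField A) N)),
      ∀ Q, Q ∉ Z →
        Q ∉ placeReductionModL h '' placesOverInfty (AlgebraicClosure ℚ) (jBar N) ∧
        ∃ a : ResidueField A, Q.ord (jC N A - algebraMap (ResidueField A) _ a) = 1 := by
  classical
  obtain ⟨Z, hZ⟩ := exists_finset_forall_ord_jC_eq_one N hℓN A hA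
  have hfin : (placeReductionModL h ''
      placesOverInfty (AlgebraicClosure ℚ) (jBar N)).Finite := by
    have := finite_placesOverInfty_jBar N
    exact (Set.toFinite _).image _
  refine ⟨Z ∪ hfin.toFinset, fun Q hQ => ?_⟩
  rw [Finset.mem_union, not_or, Set.Finite.mem_toFinset] at hQ
  exact ⟨hQ.2, hZ Q hQ.1⟩

end Fermat.Agent.FF2.Branch
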